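import Fermat.Agent.S21.PeriodMapLinear

set_option autoImplicit false
set_option linter.unusedSectionVars false

/-!
Periods of cusp forms vanish on parabolic elements; the range of `periodHomPair` consists of
parabolic homomorphisms.
-/

open UpperHalfPlane Filter Topology Complex Function CongruenceSubgroup
open scoped MatrixGroups Manifold ModularForm Real

noncomputable section

namespace Fermat.Agent.S21per

/-- An integral matrix of determinant one and trace `± 2` is conjugate to a translation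
(up to sign). -/
lemma exists_conj_translation (γ : SL(2, ℤ))
    (h : (γ : Matrix (Fin 2) (Fin 2) ℤ).trace ^ 2 = 4) :
    ∃ (δ : SL(2, ℤ)) (m : ℤ), ∀ w : ℍ, γ • δ • w = δ • ((m : ℝ) +ᵥ w) := by
  obtain ⟨ε, hε, hε2⟩ : ∃ ε : ℤ, ε ^ 2 = 1 ∧ γ 0 0 + γ 1 1 = 2 * ε := by
    rw [Matrix.trace_fin_two] at h
    have : (γ 0 0 + γ 1 1 - 2) * (γ 0 0 + γ 1 1 + 2) = 0 := by linear_combination h
    rcases mul_eq_zero.mp this with h | h
    · exact ⟨1, by norm_num, by linarith⟩
    · exact ⟨-1, by norm_num, by linarith⟩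
  have hdet : γ 0 0 * γ 1 1 - γ 0 1 * γ 1 0 = 1 := by
    have := γ.det_coe
    rwa [Matrix.det_fin_two] at this
  -- a primitive eigenvector
  obtain ⟨x, y, hxy, h1, h2⟩ : ∃ x y : ℤ, IsCoprime x y ∧
      γ 0 0 * x + γ 0 1 * y = ε * x ∧ γ 1 0 * x + γ 1 1 * y = ε * y := by
    set t : ℤ := γ 0 0 - ε with ht
    have ht0 : γ 0 0 = ε + t := by rw [ht]; ring
    have ht1 : γ 1 1 = ε - t := by linarith
    have hbc : γ 0 1 * γ 1 0 = - t ^ 2 := by
      rw [ht0, ht1] at hdet
      linear_combination -hdet + hε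
    by_cases hb : γ 0 1 = 0 ∧ t = 0
    · refine ⟨0, 1, isCoprime_one_right, ?_, ?_⟩
      · rw [hb.1]; ring
      · rw [ht1, hb.2]; ring
    · have hg : 0 < Int.gcd (γ 0 1) t := by
        rw [Nat.pos_iff_ne_zero, Ne, Int.gcd_eq_zero_iff]
        exact hb
      obtain ⟨b', t', hc, hb', ht'⟩ := Int.exists_gcd_one hg
      set g : ℤ := (Int.gcd (γ 0 1) t : ℤ) with hgdef
      have hgne : g ≠ 0 := by
        rw [hgdef]; exact_mod_cast hg.ne'
      have hc' : IsCoprime b' t' := Int.isCoprime_iff_gcd_eq_one.mpr hc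
      refine ⟨b', -t', hc'.neg_right, ?_, ?_⟩
      · rw [ht0, hb', ht']; ring
      · apply mul_right_cancel₀ hgne
        have h3 : γ 1 0 * (b' * g) - γ 1 1 * (t' * g) = - ε * (t' * g) := by
          rw [← hb', ← ht', ht1]
          linear_combination hbc
        linear_combination h3
  obtain ⟨δ, hδ0, hδ1⟩ := hxy.exists_SL2_col 0
  have hA : (δ⁻¹ * γ * δ) 1 0 = 0 := by
    rw [Matrix.SpecialLinearGroup.coe_mul, Matrix.SpecialLinearGroup.coe_mul,
      Matrix.SpecialLinearGroup.coe_inv, Matrix.adjugate_fin_two]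
    simp only [Matrix.mul_apply, Fin.sum_univ_two, Matrix.of_apply, Matrix.cons_val_zero,
      Matrix.cons_val_one, Matrix.cons_val', Matrix.cons_val_fin_one]
    rw [hδ0, hδ1]
    linear_combination x * h2 - y * h1
  obtain ⟨m, hm⟩ := ModularGroup.exists_eq_T_zpow_of_c_eq_zero hA
  refine ⟨δ, m, fun w ↦ ?_⟩
  rw [← UpperHalfPlane.modular_T_zpow_smul, ← hm w, ← mul_smul, ← mul_smul]
  congr 1
  group

lemma tendsto_vadd_atImInfty (m : ℝ) : Tendsto (fun w : ℍ ↦ m +ᵥ w) atImInfty atImInfty := by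
  rw [atImInfty, tendsto_comap_iff]
  have : UpperHalfPlane.im ∘ (fun w : ℍ ↦ m +ᵥ w) = UpperHalfPlane.im := by
    ext w; simp
  rw [this]
  exact tendsto_comap

variable {N : ℕ} [NeZero N]

lemma periodLin_mem_parabolicHoms (f : CuspForm (Gamma0 N) 2) :
    periodLin N f ∈ ModularCurve.Period.parabolicHoms ℂ (Gamma0 N) ℂ := by
  rw [ModularCurve.Period.mem_parabolicHoms_iff]
  intro γ hγ
  obtain ⟨F, hF⟩ := exists_goodPrim f
  obtain ⟨δ, m, hδ⟩ := exists_conj_translation (γ : SL(2, ℤ)) hγ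
  obtain ⟨L, hL⟩ := hF.cusp δ
  have h1 : ∀ w : ℍ, periodLin N f (Additive.ofMul γ) = F (δ • ((m : ℝ) +ᵥ w)) - F (δ • w) := by
    intro w
    rw [← hδ w]
    exact hF.periodMap_apply γ (δ • w)
  have h2 : Tendsto (fun w : ℍ ↦ F (δ • ((m : ℝ) +ᵥ w)) - F (δ • w)) atImInfty (𝓝 (L - L)) :=
    (hL.comp (tendsto_vadd_atImInfty m)).sub hL
  have h3 : Tendsto (fun _ : ℍ ↦ periodLin N f (Additive.ofMul γ)) atImInfty (𝓝 (L - L)) := by
    refine h2.congr fun w ↦ (h1 w).symm
  have := tendsto_nhds_unique tendsto_const_nhds h3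
  rw [this, sub_self]

theorem range_le_parabolicHoms :
    LinearMap.range (ModularCurve.periodHomPair N)
      ≤ ModularCurve.Period.parabolicHoms ℂ (Gamma0 N) ℂ := by
  rintro _ ⟨⟨f, g⟩, rfl⟩
  rw [periodHomPair_eq, LinearMap.coprod_apply]
  have hf := periodLin_mem_parabolicHoms f
  have hg := periodLin_mem_parabolicHoms g
  exact Submodule.add_mem _
    (Submodule.add_mem _ hf (ModularCurve.Period.charInvolution_mem_parabolicHoms N ℂ ℂ hf))
    (Submodule.sub_mem _ hg (ModularCurve.Period.charInvolution_mem_parabolicHoms N ℂ ℂ hg))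

end Fermat.Agent.S21per
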