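import Fermat.Agent.S21.PeriodMax

set_option autoImplicit false
set_option linter.unusedSectionVars false

/-!
Injectivity of `periodHomPair`.
-/

open UpperHalfPlane Filter Topology Complex Function CongruenceSubgroup
open scoped MatrixGroups Manifold ModularForm Real ComplexConjugate

noncomputable section

namespace Fermat.Agent.S21per

lemma J_smul_smul (δ : SL(2, ℤ)) (z : ℍ) :
    J • (δ • z) = (ModularCurve.Period.jConjSL δ) • (J • z) := by
  change J • ((δ : GL (Fin 2) ℝ) • z) =
    ((ModularCurve.Period.jConjSL δ : SL(2, ℤ)) : GL (Fin 2) ℝ) • (J • z)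
  rw [← mul_smul, ← mul_smul]
  congr 1
  ext i j
  simp only [Matrix.GeneralLinearGroup.coe_mul]
  fin_cases i <;> fin_cases j <;>
    simp [J, Matrix.mul_apply, Fin.sum_univ_two, ModularCurve.Period.jConjMat]

lemma J_smul_coe (z : ℍ) : ((J • z : ℍ) : ℂ) = -(conj (z : ℂ)) := by
  rw [J_smul, ofComplex_apply_of_im_pos (by simpa using z.im_pos)]

lemma J_smul_J_smul (z : ℍ) : J • (J • z) = z := by
  ext
  rw [J_smul_coe, J_smul_coe]
  simp

lemma J_smul_vadd (x : ℝ) (z : ℍ) : J • (x +ᵥ z) = (-x) +ᵥ (J • z) := by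
  ext
  rw [J_smul_coe, coe_vadd, coe_vadd, J_smul_coe]
  simp
  ring

lemma im_J_smul' (z : ℍ) : (J • z).im = z.im := by
  rw [← coe_im, J_smul_coe]
  simp

lemma tendsto_J_smul : Tendsto (fun w : ℍ ↦ J • w) atImInfty atImInfty := by
  rw [atImInfty, tendsto_comap_iff]
  have : UpperHalfPlane.im ∘ (fun w : ℍ ↦ J • w) = UpperHalfPlane.im := by
    ext w; simp only [Function.comp_apply]; exact im_J_smul' w
  rw [this]
  exact tendsto_comap

/-- the reflected function -/
def reflFun (F : ℍ → ℂ) (z : ℍ) : ℂ := conj (F (J • z))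

lemma reflFun_eq_slash (F : ℍ → ℂ) : reflFun F = F ∣[(0 : ℤ)] J := by
  ext z
  simp [reflFun, ModularForm.slash_def]

namespace Nice

variable {N : ℕ} {H H' : ℍ → ℂ}

lemma refl (hH : Nice N H) : Nice N (reflFun H) where
  mdiff := by
    rw [reflFun_eq_slash]
    exact MDifferentiable.slash hH.mdiff 0 J
  per δ w := by
    have h := hH.per (ModularCurve.Period.jConjSL δ) ((-(N : ℝ)) +ᵥ (J • w))
    rw [reflFun, reflFun, J_smul_smul, J_smul_smul, J_smul_vadd, ← h, vadd_vadd]
    simp
  bdd δ := by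
    have h := hH.bdd (ModularCurve.Period.jConjSL δ)
    have h2 := h.comp_tendsto tendsto_J_smul
    have h3 : (fun w : ℍ ↦ reflFun H (δ • w)) =
        fun w ↦ conj (((fun w : ℍ ↦ H (ModularCurve.Period.jConjSL δ • w)) ∘
          (fun w : ℍ ↦ J • w)) w) := by
      ext w
      rw [reflFun, J_smul_smul]; rfl
    rw [h3]
    rw [isBoundedAtImInfty_iff]
    have h4 : IsBoundedAtImInfty ((fun w : ℍ ↦ H (ModularCurve.Period.jConjSL δ • w)) ∘
          (fun w : ℍ ↦ J • w)) := h2
    rw [isBoundedAtImInfty_iff] at h4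
    obtain ⟨M, A, hMA⟩ := h4
    refine ⟨M, A, fun z hz ↦ ?_⟩
    rw [RCLike.norm_conj]
    exact hMA z hz

lemma add (hH : Nice N H) (hH' : Nice N H') : Nice N (H + H') where
  mdiff := hH.mdiff.add hH'.mdiff
  per δ w := by simp only [Pi.add_apply, hH.per, hH'.per]
  bdd δ := (hH.bdd δ).add (hH'.bdd δ)

lemma smul (c : ℂ) (hH : Nice N H) : Nice N (c • H) where
  mdiff := hH.mdiff.const_smul c
  per δ w := by simp only [Pi.smul_apply, hH.per]
  bdd δ := (hH.bdd δ).const_smul_left c

end Nice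

variable {N : ℕ} [NeZero N]

lemma GoodPrim.nice {f : CuspForm (Gamma0 N) 2} {F : ℍ → ℂ} (hF : GoodPrim f F) : Nice N F where
  mdiff := hF.mdiff
  per δ w := by
    have h1 := hF.periodMap_apply ⟨_, conj_T_pow_mem N δ⟩ (δ • w)
    have h2 : periodLin N f (Additive.ofMul ⟨_, conj_T_pow_mem N δ⟩) = 0 := by
      refine periodLin_mem_parabolicHoms f ⟨_, conj_T_pow_mem N δ⟩ ?_
      have h3 : ((δ * ModularGroup.T ^ N * δ⁻¹ : SL(2, ℤ)) : Matrix (Fin 2) (Fin 2) ℤ).trace = 2 := by
        rw [Matrix.SpecialLinearGroup.coe_mul, Matrix.trace_mul_comm,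
          ← Matrix.SpecialLinearGroup.coe_mul, ← mul_assoc, inv_mul_cancel, one_mul]
        have h4 := ModularGroup.coe_T_zpow (N : ℤ)
        rw [zpow_natCast] at h4
        rw [h4, Matrix.trace_fin_two]
        simp
      rw [h3]; norm_num
    have h5 : (δ * ModularGroup.T ^ N * δ⁻¹ : SL(2, ℤ)) • (δ • w) = δ • ((N : ℝ) +ᵥ w) := by
      have h6 := UpperHalfPlane.modular_T_zpow_smul w (N : ℤ)
      rw [zpow_natCast, Int.cast_natCast] at h6
      rw [← h6, ← mul_smul, ← mul_smul]
      congr 1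
      group
    have h7 : ModularCurve.periodMap N f (Additive.ofMul ⟨_, conj_T_pow_mem N δ⟩) = 0 := h2
    rw [h7] at h1
    change 0 = F ((δ * ModularGroup.T ^ N * δ⁻¹ : SL(2, ℤ)) • (δ • w)) - F (δ • w) at h1
    rw [h5] at h1
    linear_combination -h1
  bdd δ := by
    obtain ⟨L, hL⟩ := hF.cusp δ
    exact hL.isBigO_one ℝ

lemma eq_zero_of_const {f : CuspForm (Gamma0 N) 2} {F : ℍ → ℂ} (hF : GoodPrim f F)
    (hc : ∀ z w : ℍ, F z = F w) : f = 0 := by
  ext τ
  have h1 := hF.prim τ
  have h2 : HasDerivAt (F ∘ ofComplex) 0 (τ : ℂ) := by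
    have : (F ∘ ofComplex) = fun _ ↦ F UpperHalfPlane.I := by
      ext x; exact hc _ _
    rw [this]; exact hasDerivAt_const _ _
  simpa using h1.unique h2

/-- The key injectivity statement. -/
theorem eq_zero_of_involution {f : CuspForm (Gamma0 N) 2} {ε : ℝ} (hε : ε ≠ 0)
    (h : ModularCurve.Period.charInvolution N ℂ ℂ (periodLin N f) = (ε : ℂ) • periodLin N f) :
    f = 0 := by
  obtain ⟨F, hF⟩ := exists_goodPrim f
  have hper : ∀ γ : Gamma0 N, ∀ z w : ℍ,
      F (ModularCurve.Period.jConjSL (γ : SL(2, ℤ)) • z) - F z =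
        ε * (F ((γ : SL(2, ℤ)) • w) - F w) := by
    intro γ z w
    have h1 := DFunLike.congr_fun h (Additive.ofMul γ)
    rw [ModularCurve.Period.charInvolution_apply] at h1
    have h2 := hF.periodMap_apply (ModularCurve.Period.jConjGamma0 N γ) z
    have h3 := hF.periodMap_apply γ w
    change ModularCurve.periodMap N f (Additive.ofMul (ModularCurve.Period.jConjGamma0 N γ)) =
      (ε : ℂ) * ModularCurve.periodMap N f (Additive.ofMul γ) at h1
    rw [h2, h3] at h1
    exact h1
  have hrefl : ∀ γ : Gamma0 N, ∀ z : ℍ, reflFun F ((γ : SL(2, ℤ)) • z) - reflFun F z =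
      ε * conj (F ((γ : SL(2, ℤ)) • z) - F z) := by
    intro γ z
    rw [reflFun, reflFun, J_smul_smul, ← map_sub, hper γ (J • z) z, map_mul, Complex.conj_ofReal]
  have n1 : Nice N (reflFun F + (-(ε : ℂ)) • F) := hF.nice.refl.add (hF.nice.smul _)
  have n2 : Nice N (Complex.I • (reflFun F + (ε : ℂ) • F)) :=
    (hF.nice.refl.add (hF.nice.smul _)).smul _
  have c1 := n1.eq_const (by
    intro γ hγ z
    have h1 := hrefl ⟨γ, hγ⟩ z
    have h2 : ((reflFun F (γ • z) - reflFun F z) + (-(ε : ℂ)) * (F (γ • z) - F z)).re = 0 := by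
      rw [h1]
      simp [Complex.mul_re]
    simp only [Pi.add_apply, Pi.smul_apply, smul_eq_mul]
    have h3 : (reflFun F (γ • z) + (-(ε : ℂ)) * F (γ • z)) -
        (reflFun F z + (-(ε : ℂ)) * F z) =
        (reflFun F (γ • z) - reflFun F z) + (-(ε : ℂ)) * (F (γ • z) - F z) := by ring
    rw [← sub_eq_zero, ← Complex.sub_re, h3, h2])
  have c2 := n2.eq_const (by
    intro γ hγ z
    have h1 := hrefl ⟨γ, hγ⟩ z
    have h2 : (Complex.I * ((reflFun F (γ • z) - reflFun F z) +
        (ε : ℂ) * (F (γ • z) - F z))).re = 0 := by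
      rw [h1]
      simp [Complex.mul_re, Complex.mul_im]
      ring
    simp only [Pi.add_apply, Pi.smul_apply, smul_eq_mul]
    have h3 : Complex.I * (reflFun F (γ • z) + (ε : ℂ) * F (γ • z)) -
        Complex.I * (reflFun F z + (ε : ℂ) * F z) =
        Complex.I * ((reflFun F (γ • z) - reflFun F z) + (ε : ℂ) * (F (γ • z) - F z)) := by ring
    rw [← sub_eq_zero, ← Complex.sub_re, h3, h2])
  refine eq_zero_of_const hF fun z w ↦ ?_
  have e1 := c1 z w
  have e2 := c2 z w
  simp only [Pi.add_apply, Pi.smul_apply, smul_eq_mul] at e1 e2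
  have e3 := mul_left_cancel₀ Complex.I_ne_zero e2
  have hε' : (2 * ε : ℂ) ≠ 0 := mul_ne_zero two_ne_zero (by exact_mod_cast hε)
  apply mul_left_cancel₀ hε'
  linear_combination e3 - e1

theorem periodHomPair_injective : Function.Injective (ModularCurve.periodHomPair N) := by
  rw [← LinearMap.ker_eq_bot, LinearMap.ker_eq_bot']
  rintro ⟨f, g⟩ h
  rw [periodHomPair_eq, LinearMap.coprod_apply] at h
  set ι := ModularCurve.Period.charInvolution N ℂ ℂ with hι
  have hιι : ∀ ψ, ι (ι ψ) = ψ := ModularCurve.Period.charInvolution_charInvolution N ℂ ℂ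
  simp only [LinearMap.comp_apply, LinearMap.add_apply, LinearMap.sub_apply,
    LinearMap.id_apply] at h
  have h2 := congrArg ι h
  simp only [map_add, map_sub, map_zero, hιι] at h2
  have hf : ι (periodLin N f) = ((-1 : ℝ) : ℂ) • periodLin N f := by
    have h3 : (2 : ℂ) • (ι (periodLin N f) + periodLin N f) = 0 := by
      rw [two_smul]
      calc _ = (periodLin N f + ι (periodLin N f) + (periodLin N g - ι (periodLin N g))) +
          (ι (periodLin N f) + periodLin N f + (ι (periodLin N g) - periodLin N g)) := by abel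
        _ = 0 := by rw [h, h2, add_zero]
    have h4 := (smul_eq_zero.mp h3).resolve_left two_ne_zero
    rw [eq_neg_of_add_eq_zero_left h4]
    simp
  have hg : ι (periodLin N g) = ((1 : ℝ) : ℂ) • periodLin N g := by
    have h3 : (2 : ℂ) • (ι (periodLin N g) - periodLin N g) = 0 := by
      rw [two_smul]
      calc _ = (ι (periodLin N f) + periodLin N f + (ι (periodLin N g) - periodLin N g)) -
          (periodLin N f + ι (periodLin N f) + (periodLin N g - ι (periodLin N g))) := by abel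
        _ = 0 := by rw [h, h2, sub_zero]
    have h4 := (smul_eq_zero.mp h3).resolve_left two_ne_zero
    rw [sub_eq_zero.mp h4]
    simp
  rw [Prod.mk_eq_zero]
  exact ⟨eq_zero_of_involution (by norm_num) hf, eq_zero_of_involution (by norm_num) hg⟩

end Fermat.Agent.S21per
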