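import Fermat.Agent.S21.ParBound
import Fermat.Agent.P1Count.Count
import Fermat.Agent.P1Count.Cusps
import Fermat.Prelude.Def_ModularCurve_GenusNumerics

/-!
# The dimension of parabolic cohomology of `Γ₀(N)` is at most twice the genus formula
-/

set_option autoImplicit false

namespace Fermat.Agent.S21par

open Module ModularCurve.Period ModularGroup ModularCurve CongruenceSubgroup
open scoped MatrixGroups

/-- `TS` and `ST` have the same number of fixed points. -/
theorem card_fixed_TS (Γ : Subgroup SL(2, ℤ)) :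
    Nat.card {x : SL(2, ℤ) ⧸ Γ // (T * S) • x = x} =
      Nat.card {x : SL(2, ℤ) ⧸ Γ // (S * T) • x = x} := by
  refine Nat.card_congr ?_
  refine
    { toFun := fun x => ⟨S • x.1, ?_⟩
      invFun := fun x => ⟨T • x.1, ?_⟩
      left_inv := fun x => ?_
      right_inv := fun x => ?_ }
  · rw [← mul_smul, mul_assoc, mul_smul, x.2]
  · rw [← mul_smul, mul_assoc, mul_smul, x.2]
  · apply Subtype.ext
    change T • S • x.1 = x.1
    rw [← mul_smul]; exact x.2
  · apply Subtype.ext
    change S • T • x.1 = x.1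
    rw [← mul_smul]; exact x.2

theorem neg_one_mem_Gamma0 (N : ℕ) : (-1 : SL(2, ℤ)) ∈ Gamma0 N := by
  rw [Gamma0_mem]; simp

instance (N : ℕ) [NeZero N] : FiniteDimensional ℂ (parabolicHoms ℂ (Gamma0 N) ℂ) :=
  inferInstance

/-- **Upper bound for parabolic cohomology of `Γ₀(N)`.** -/
theorem finrank_parabolicHoms_Gamma0_le (N : ℕ) [NeZero N] :
    (finrank ℂ (parabolicHoms ℂ (Gamma0 N) ℂ) : ℚ) ≤ 2 * genusFormula N := by
  have h := finrank_par_le (Gamma0 N) (neg_one_mem_Gamma0 N)
  rw [card_fixed_TS, Fermat.Agent.P1Count.card_fixed_S, Fermat.Agent.P1Count.card_fixed_ST,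
    Fermat.Agent.P1Count.card_orbits_T, Fermat.Agent.P1Count.card_coset] at h
  rw [genusFormula]
  linarith

end Fermat.Agent.S21par
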