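import Fermat.Prelude.Def_ModularCurve_GenusNumerics
import Fermat.Agent.S21.PeriodInjective
import Fermat.Agent.S21.ParBoundGamma0

set_option autoImplicit false

/-!
Assembly of S21 from the dimension formula for cusp forms of weight two.
-/

open CongruenceSubgroup

noncomputable section

namespace Fermat.Agent.S21per

variable {N : ℕ} [NeZero N]

theorem finiteDimensional_cuspForm : FiniteDimensional ℂ (CuspForm (Gamma0 N) 2) := by
  have hle := range_le_parabolicHoms (N := N)
  have hfin : FiniteDimensional ℂ (ModularCurve.Period.parabolicHoms ℂ (Gamma0 N) ℂ) :=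
    inferInstance
  have h1 : FiniteDimensional ℂ (LinearMap.range (ModularCurve.periodHomPair N)) :=
    Submodule.finiteDimensional_of_le hle
  have h2 : FiniteDimensional ℂ (CuspForm (Gamma0 N) 2 × CuspForm (Gamma0 N) 2) :=
    LinearEquiv.finiteDimensional
      (LinearEquiv.ofInjective (ModularCurve.periodHomPair N) periodHomPair_injective).symm
  exact Module.Finite.of_surjective (LinearMap.fst ℂ (CuspForm (Gamma0 N) 2)
    (CuspForm (Gamma0 N) 2)) LinearMap.fst_surjective

theorem two_mul_finrank_eq : Module.finrank ℂ (LinearMap.range (ModularCurve.periodHomPair N)) =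
    2 * Module.finrank ℂ (CuspForm (Gamma0 N) 2) := by
  have := finiteDimensional_cuspForm (N := N)
  rw [LinearMap.finrank_range_of_inj (periodHomPair_injective (N := N)), Module.finrank_prod, two_mul]

/-- Unconditional upper bound for the dimension of the space of cusp forms. -/
theorem finrank_cuspForm_le :
    (Module.finrank ℂ (CuspForm (Gamma0 N) 2) : ℚ) ≤ ModularCurve.genusFormula N := by
  have h1 := Submodule.finrank_mono (range_le_parabolicHoms (N := N))
  rw [two_mul_finrank_eq] at h1
  have h2 := Fermat.Agent.S21par.finrank_parabolicHoms_Gamma0_le N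
  have h3 : (2 * Module.finrank ℂ (CuspForm (Gamma0 N) 2) : ℚ) ≤
      (Module.finrank ℂ (ModularCurve.Period.parabolicHoms ℂ (Gamma0 N) ℂ) : ℚ) := by
    exact_mod_cast h1
  linarith

theorem result_of_finrank_ge
    (h : ModularCurve.genusFormula N ≤ (Module.finrank ℂ (CuspForm (Gamma0 N) 2) : ℚ)) :
    Function.Injective (ModularCurve.periodHomPair N)
      ∧ LinearMap.range (ModularCurve.periodHomPair N)
          = ModularCurve.Period.parabolicHoms ℂ (CongruenceSubgroup.Gamma0 N) ℂ := by
  refine ⟨periodHomPair_injective, ?_⟩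
  refine Submodule.eq_of_le_of_finrank_le range_le_parabolicHoms ?_
  rw [two_mul_finrank_eq]
  have h2 := Fermat.Agent.S21par.finrank_parabolicHoms_Gamma0_le N
  have h3 : (Module.finrank ℂ (ModularCurve.Period.parabolicHoms ℂ (Gamma0 N) ℂ) : ℚ) ≤
      ((2 * Module.finrank ℂ (CuspForm (Gamma0 N) 2) : ℕ) : ℚ) := by
    push_cast
    linarith
  exact_mod_cast h3

end Fermat.Agent.S21per
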