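import Mathlib

set_option autoImplicit false

/-!
Primitives on the upper half plane of periodic functions vanishing at infinity, and their
behaviour under `SL(2, ℤ)`.
-/

open UpperHalfPlane Filter Topology Complex Function
open scoped MatrixGroups Manifold ModularForm Real

noncomputable section

namespace Fermat.Agent.S21per

local notation "𝕢" => Function.Periodic.qParam

/-- `F` is a primitive of `f` on the upper half plane. -/
def IsPrim (f F : ℍ → ℂ) : Prop := ∀ τ : ℍ, HasDerivAt (F ∘ ofComplex) (f τ) (τ : ℂ)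

lemma IsPrim.hasDerivAt_of_im_pos {f F : ℍ → ℂ} (h : IsPrim f F) {z : ℂ} (hz : 0 < z.im) :
    HasDerivAt (F ∘ ofComplex) (f ⟨z, hz⟩) z := h ⟨z, hz⟩

lemma isPrim_of_eventuallyEq {f F : ℍ → ℂ} {G : ℂ → ℂ}
    (hG : ∀ τ : ℍ, HasDerivAt G (f τ) (τ : ℂ)) (hFG : ∀ τ : ℍ, F τ = G τ) : IsPrim f F := by
  intro τ
  refine (hG τ).congr_of_eventuallyEq ?_
  filter_upwards [isOpen_upperHalfPlaneSet.mem_nhds τ.im_pos] with w hw
  rw [Function.comp_apply, ofComplex_apply_of_im_pos hw, hFG]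

lemma IsPrim.mdifferentiable {f F : ℍ → ℂ} (h : IsPrim f F) : MDiff F := by
  rw [UpperHalfPlane.mdifferentiable_iff]
  intro z hz
  exact (h.hasDerivAt_of_im_pos hz).differentiableAt.differentiableWithinAt

lemma IsPrim.add {f g F G : ℍ → ℂ} (hF : IsPrim f F) (hG : IsPrim g G) :
    IsPrim (f + g) (F + G) := fun τ ↦ (hF τ).add (hG τ)

lemma IsPrim.const_smul {f F : ℍ → ℂ} (c : ℂ) (hF : IsPrim f F) : IsPrim (c • f) (c • F) :=
  fun τ ↦ (hF τ).const_smul c

lemma IsPrim.sub {f g F G : ℍ → ℂ} (hF : IsPrim f F) (hG : IsPrim g G) :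
    IsPrim (f - g) (F - G) := fun τ ↦ (hF τ).sub (hG τ)

/-- Two primitives of the same function differ by a constant. -/
lemma IsPrim.sub_eq_sub {f F G : ℍ → ℂ} (hF : IsPrim f F) (hG : IsPrim f G) (z w : ℍ) :
    F z - G z = F w - G w := by
  have hconv : Convex ℝ {z : ℂ | 0 < z.im} := convex_halfSpace_im_gt 0
  have hopen : IsOpen {z : ℂ | 0 < z.im} := isOpen_upperHalfPlaneSet
  have hd : DifferentiableOn ℂ ((F - G) ∘ ofComplex) {z : ℂ | 0 < z.im} := fun z hz ↦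
    ((hF.sub hG).hasDerivAt_of_im_pos hz).differentiableAt.differentiableWithinAt
  have h0 : Set.EqOn (deriv ((F - G) ∘ ofComplex)) 0 {z : ℂ | 0 < z.im} := fun z hz ↦ by
    have := ((hF.sub hG).hasDerivAt_of_im_pos hz).deriv
    rw [this]; simp
  have := hopen.is_const_of_deriv_eq_zero hconv.isPreconnected hd h0 z.im_pos w.im_pos
  simpa [Function.comp_apply, ofComplex_apply] using this

/-- Primitive of a periodic holomorphic function vanishing at infinity. -/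
theorem exists_prim_of_periodic {h : ℝ} (hh : 0 < h) {f : ℍ → ℂ}
    (hper : Periodic (f ∘ ofComplex) h) (hhol : MDiff f) (hzero : IsZeroAtImInfty f) :
    ∃ F : ℍ → ℂ, IsPrim f F ∧ Tendsto F atImInfty (𝓝 0) ∧
      ∀ τ τ' : ℍ, 𝕢 h τ = 𝕢 h τ' → F τ = F τ' := by
  have hbdd : IsBoundedAtImInfty f := hzero.isBoundedAtImInfty
  have hφ : DifferentiableOn ℂ (cuspFunction h f) (Metric.ball 0 1) :=
    differentiableOn_cuspFunction_ball hh hper hhol hbdd
  have hφ0 : cuspFunction h f 0 = 0 := hzero.cuspFunction_apply_zero hh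
  have hψ : DifferentiableOn ℂ (dslope (cuspFunction h f) 0) (Metric.ball 0 1) :=
    (Complex.differentiableOn_dslope (Metric.ball_mem_nhds 0 one_pos)).mpr hφ
  obtain ⟨Ψ, hΨ0, hΨ⟩ := hψ.isExactOn_ball.with_val_at 0 0
  set c : ℂ := (h : ℂ) / (2 * π * Complex.I) with hc
  have hcne : (2 * π * Complex.I : ℂ) ≠ 0 := Complex.two_pi_I_ne_zero
  have hhc : (h : ℂ) ≠ 0 := by exact_mod_cast hh.ne'
  refine ⟨fun τ ↦ c * Ψ (𝕢 h τ), ?_, ?_, ?_⟩
  · refine isPrim_of_eventuallyEq (G := fun z ↦ c * Ψ (𝕢 h z)) (fun τ ↦ ?_) (fun _ ↦ rfl)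
    have hq : ‖𝕢 h τ‖ < 1 := Periodic.norm_qParam_lt_one hh τ.im_pos
    have hqne : 𝕢 h τ ≠ 0 := Periodic.qParam_ne_zero _
    have h1 := hΨ (𝕢 h τ) (by simpa using hq)
    have h2 : HasDerivAt (𝕢 h) (𝕢 h τ * (2 * π * Complex.I / h)) (τ : ℂ) := by
      have h3 : HasDerivAt (fun z : ℂ ↦ 2 * π * Complex.I * z / h) (2 * π * Complex.I / h) (τ : ℂ) := by
        simpa using ((hasDerivAt_id (τ : ℂ)).const_mul (2 * π * Complex.I : ℂ)).div_const (h : ℂ)
      exact h3.cexp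
    have h4 := (h1.comp (τ : ℂ) h2).const_mul c
    refine h4.congr_deriv ?_
    rw [dslope_of_ne _ hqne, slope_def_field, hφ0, sub_zero, sub_zero,
      UpperHalfPlane.eq_cuspFunction τ hh.ne' hper, hc]
    field_simp
  · have h1 : ContinuousAt Ψ 0 := (hΨ 0 (by simp)).continuousAt
    have h2 := (h1.tendsto.comp (qParam_tendsto_atImInfty hh)).const_mul c
    simpa [hΨ0] using h2
  · intro τ τ' hq
    simp only [hq]

/-- The derivative of `w ↦ F (δ • w)` is the weight two slash of the derivative of `F`. -/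
lemma IsPrim.smul {f F : ℍ → ℂ} (hF : IsPrim f F) (δ : SL(2, ℤ)) :
    IsPrim (f ∣[(2 : ℤ)] δ) (fun w ↦ F (δ • w)) := by
  intro τ
  have hdet : (0 : ℝ) < ((δ : GL (Fin 2) ℝ)).val.det := by
    rw [← Matrix.GeneralLinearGroup.val_det_apply]; simp
  have h1 : HasDerivAt (fun w ↦ ((δ : GL (Fin 2) ℝ) • ofComplex w : ℍ) : ℂ → ℂ)
      (((δ : GL (Fin 2) ℝ).val.det : ℂ) / denom δ τ ^ 2) (τ : ℂ) :=
    (hasStrictDerivAt_smul hdet τ).hasDerivAt
  have h2 : HasDerivAt (F ∘ ofComplex) (f (δ • τ)) (((δ : GL (Fin 2) ℝ) • ofComplex (τ : ℂ) : ℍ) : ℂ) := by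
    rw [ofComplex_apply]; exact hF (δ • τ)
  have h3 := h2.comp (τ : ℂ) h1
  have h4 : (F ∘ ofComplex) ∘ (fun w : ℂ ↦ (((δ : GL (Fin 2) ℝ) • ofComplex w : ℍ) : ℂ)) =
      (fun w ↦ F (δ • w)) ∘ ofComplex := by
    ext w
    simp only [Function.comp_apply, ofComplex_apply]
    rfl
  rw [h4] at h3
  refine h3.congr_deriv ?_
  rw [ModularForm.SL_slash_apply]
  have hd : ((δ : GL (Fin 2) ℝ).val.det : ℂ) = 1 := by
    rw [← Matrix.GeneralLinearGroup.val_det_apply]; simp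
  rw [hd, zpow_neg, div_eq_mul_inv, one_mul]
  rfl

end Fermat.Agent.S21per
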