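import Fermat.Prelude.Def_ModularCurve_PeriodHomPair
import Fermat.Agent.S21.PeriodPrimitive

set_option autoImplicit false
set_option linter.unusedSectionVars false

/-!
Existence of the equivariant primitive of a weight two cusp form, and linearity of the period map.
-/

open UpperHalfPlane Filter Topology Complex Function CongruenceSubgroup
open scoped MatrixGroups Manifold ModularForm Real

noncomputable section

namespace Fermat.Agent.S21per

local notation "𝕢" => Function.Periodic.qParam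

section general

lemma gamma_le_gamma0 (N : ℕ) : CongruenceSubgroup.Gamma N ≤ Gamma0 N := by
  intro γ hγ
  rw [Gamma_mem] at hγ
  rw [Gamma0_mem]
  exact hγ.2.2.1

lemma conj_T_pow_mem (N : ℕ) (δ : SL(2, ℤ)) :
    δ * ModularGroup.T ^ N * δ⁻¹ ∈ Gamma0 N := by
  apply gamma_le_gamma0
  have h1 : ModularGroup.T ^ (N : ℤ) ∈ CongruenceSubgroup.Gamma N :=
    ModularGroup_T_pow_mem_Gamma N N (dvd_refl _)
  rw [zpow_natCast] at h1
  exact (Gamma_normal N).conj_mem _ h1 δ

lemma periodic_comp_ofComplex_of_vadd {g : ℍ → ℂ} {h : ℝ} (hg : ∀ τ : ℍ, g (h +ᵥ τ) = g τ) :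
    Periodic (g ∘ ofComplex) h := by
  intro w
  by_cases! hw : 0 < im w
  · have : 0 < im (w + h) := by simp [hw]
    simp only [comp_apply, ofComplex_apply_of_im_pos this, ofComplex_apply_of_im_pos hw]
    convert! hg ⟨w, hw⟩ using 2
    ext
    simp [add_comm]
  · have : im (w + h) ≤ 0 := by simpa using hw
    simp [ofComplex_apply_of_im_nonpos this, ofComplex_apply_of_im_nonpos hw]

lemma slash_T_pow_apply (g : ℍ → ℂ) (k : ℤ) (n : ℕ) (τ : ℍ) :
    (g ∣[k] (ModularGroup.T ^ n : SL(2, ℤ))) τ = g ((n : ℝ) +ᵥ τ) := by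
  have h1 : (ModularGroup.T ^ n : SL(2, ℤ)) • τ = (n : ℝ) +ᵥ τ := by
    have := UpperHalfPlane.modular_T_zpow_smul τ (n : ℤ)
    simpa using this
  rw [ModularForm.SL_slash_apply, h1]
  have h2 : denom (ModularGroup.T ^ n : SL(2, ℤ)) τ = 1 := by
    have h3 := ModularGroup.coe_T_zpow (n : ℤ)
    rw [zpow_natCast] at h3
    rw [ModularGroup.denom_apply, h3]
    simp
  rw [h2]; simp

end general

section cuspform

variable {N : ℕ} [NeZero N]

lemma cusp_slash_mem (f : CuspForm (Gamma0 N) 2) {γ : SL(2, ℤ)} (hγ : γ ∈ Gamma0 N) :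
    (f : ℍ → ℂ) ∣[(2 : ℤ)] γ = f := by
  have := SlashInvariantForm.slash_action_eqn (Γ := (Gamma0 N : Subgroup (GL (Fin 2) ℝ))) f
    (γ : GL (Fin 2) ℝ) (by exact ⟨γ, hγ, rfl⟩)
  simpa [ModularForm.SL_slash] using this

lemma cusp_slash_periodic (f : CuspForm (Gamma0 N) 2) (δ : SL(2, ℤ)) :
    Periodic (((f : ℍ → ℂ) ∣[(2 : ℤ)] δ) ∘ ofComplex) (N : ℝ) := by
  apply periodic_comp_ofComplex_of_vadd
  intro τ
  rw [← slash_T_pow_apply ((f : ℍ → ℂ) ∣[(2 : ℤ)] δ) 2 N τ, ← SlashAction.slash_mul,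
    show δ * ModularGroup.T ^ N = (δ * ModularGroup.T ^ N * δ⁻¹) * δ by group,
    SlashAction.slash_mul, cusp_slash_mem f (conj_T_pow_mem N δ)]

lemma cusp_slash_zero (f : CuspForm (Gamma0 N) 2) (δ : SL(2, ℤ)) :
    IsZeroAtImInfty ((f : ℍ → ℂ) ∣[(2 : ℤ)] δ) := by
  have h1 : IsCusp (Matrix.SpecialLinearGroup.mapGL ℝ δ • OnePoint.infty)
      (𝒮ℒ) := isCusp_SL2Z_iff'.mpr ⟨δ, rfl⟩
  have h2 : IsCusp (Matrix.SpecialLinearGroup.mapGL ℝ δ • OnePoint.infty)
      (Gamma0 N : Subgroup (GL (Fin 2) ℝ)) := by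
    rwa [Subgroup.IsArithmetic.isCusp_iff_isCusp_SL2Z]
  exact (OnePoint.isZeroAt_iff_forall_SL2Z h1).mp (f.zero_at_cusps' h2) δ rfl

lemma cusp_slash_mdiff (f : CuspForm (Gamma0 N) 2) (δ : SL(2, ℤ)) :
    MDiff ((f : ℍ → ℂ) ∣[(2 : ℤ)] δ) := by
  have := MDifferentiable.slash f.holo' 2 (δ : GL (Fin 2) ℝ)
  simpa [ModularForm.SL_slash] using! this

/-- A primitive of `f` with all the good properties. -/
structure GoodPrim (f : CuspForm (Gamma0 N) 2) (F : ℍ → ℂ) : Prop where
  prim : IsPrim f F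
  zero : Tendsto F atImInfty (𝓝 0)

lemma exists_goodPrim (f : CuspForm (Gamma0 N) 2) : ∃ F, GoodPrim f F := by
  have hN : (0 : ℝ) < N := by exact_mod_cast Nat.pos_of_ne_zero (NeZero.ne N)
  have h1 := cusp_slash_periodic f 1
  have h2 := cusp_slash_mdiff f 1
  have h3 := cusp_slash_zero f 1
  rw [SlashAction.slash_one] at h1 h2 h3
  obtain ⟨F, hF, hF0, -⟩ := exists_prim_of_periodic hN h1 h2 h3
  exact ⟨F, hF, hF0⟩

namespace GoodPrim

variable {f : CuspForm (Gamma0 N) 2} {F : ℍ → ℂ}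

lemma mdiff (hF : GoodPrim f F) : MDiff F := hF.prim.mdifferentiable

/-- Limits of a good primitive at the cusps, together with periodicity. -/
lemma cusp (hF : GoodPrim f F) (δ : SL(2, ℤ)) :
    ∃ L : ℂ, Tendsto (fun w : ℍ ↦ F (δ • w)) atImInfty (𝓝 L) := by
  have hN : (0 : ℝ) < N := by exact_mod_cast Nat.pos_of_ne_zero (NeZero.ne N)
  obtain ⟨G, hG, hG0, -⟩ := exists_prim_of_periodic hN (cusp_slash_periodic f δ)
    (cusp_slash_mdiff f δ) (cusp_slash_zero f δ)
  have h := (hF.prim.smul δ).sub_eq_sub hG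
  refine ⟨F (δ • UpperHalfPlane.I) - G UpperHalfPlane.I, ?_⟩
  have h2 : (fun w : ℍ ↦ F (δ • w)) =
      fun w ↦ G w + (F (δ • UpperHalfPlane.I) - G UpperHalfPlane.I) := by
    ext w
    linear_combination h w UpperHalfPlane.I
  rw [h2]
  simpa using hG0.add_const (F (δ • UpperHalfPlane.I) - G UpperHalfPlane.I)

lemma equivariant (hF : GoodPrim f F) :
    ModularCurve.Period.IsEquivariantPrimitive (Gamma0 N) F := by
  intro γ
  refine ⟨F ((γ : SL(2, ℤ)) • UpperHalfPlane.I) - F UpperHalfPlane.I, fun z ↦ ?_⟩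
  have h1 := hF.prim.smul (γ : SL(2, ℤ))
  rw [cusp_slash_mem f γ.2] at h1
  exact h1.sub_eq_sub hF.prim z UpperHalfPlane.I

lemma has (hF : GoodPrim f F) : ModularCurve.HasEquivariantPrimitive N f F :=
  ⟨hF.prim, hF.zero, hF.equivariant, hF.cusp⟩

lemma of_has (hF : ModularCurve.HasEquivariantPrimitive N f F) : GoodPrim f F :=
  ⟨hF.1, hF.2.1⟩

instance : (atImInfty : Filter ℍ).NeBot := by
  rw [atImInfty]
  refine Filter.comap_neBot fun s hs ↦ ?_
  rw [Filter.mem_atTop_sets] at hs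
  obtain ⟨b, hb⟩ := hs
  refine ⟨⟨(max b 1 : ℝ) * Complex.I, by simp⟩, hb _ ?_⟩
  change b ≤ ((max b 1 : ℝ) * Complex.I : ℂ).im
  simp

lemma unique {G : ℍ → ℂ} (hF : GoodPrim f F) (hG : GoodPrim f G) : F = G := by
  have h := hF.prim.sub_eq_sub hG.prim
  have h2 : Tendsto (fun w : ℍ ↦ F w - G w) atImInfty (𝓝 0) := by
    simpa using hF.zero.sub hG.zero
  ext z
  have h3 : Tendsto (fun w : ℍ ↦ F w - G w) atImInfty (𝓝 (F z - G z)) := by
    have : (fun w : ℍ ↦ F w - G w) = fun _ ↦ F z - G z := by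
      ext w; exact h w z
    rw [this]; exact tendsto_const_nhds
  have := tendsto_nhds_unique h3 h2
  linear_combination this

lemma periodMap_apply (hF : GoodPrim f F) (γ : Gamma0 N) (z : ℍ) :
    ModularCurve.periodMap N f (Additive.ofMul γ) = F ((γ : SL(2, ℤ)) • z) - F z := by
  obtain ⟨F₀, h₀, h⟩ := ModularCurve.periodMap_def N f hF.has
  obtain rfl : F = F₀ := hF.unique (of_has h₀)
  rw [h, ModularCurve.Period.IsEquivariantPrimitive.periodHom_apply, ← h₀.2.2.1.sub_eq_period γ z]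

lemma add {f g : CuspForm (Gamma0 N) 2} {F G : ℍ → ℂ} (hF : GoodPrim f F) (hG : GoodPrim g G) :
    GoodPrim (f + g) (F + G) where
  prim := by
    have := hF.prim.add hG.prim
    simpa using this
  zero := by simpa using! hF.zero.add hG.zero

lemma smul {f : CuspForm (Gamma0 N) 2} {F : ℍ → ℂ} (c : ℂ) (hF : GoodPrim f F) :
    GoodPrim (c • f) (c • F) where
  prim := by
    have := hF.prim.const_smul c
    simpa using this
  zero := by simpa using! hF.zero.const_smul c

end GoodPrim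

variable (N) in
/-- The linear period map. -/
def periodLin : CuspForm (Gamma0 N) 2 →ₗ[ℂ] (Additive (Gamma0 N) →+ ℂ) where
  toFun f := ModularCurve.periodMap N f
  map_add' f g := by
    obtain ⟨F, hF⟩ := exists_goodPrim f
    obtain ⟨G, hG⟩ := exists_goodPrim g
    ext γ
    change ModularCurve.periodMap N (f + g) (Additive.ofMul γ) =
      ModularCurve.periodMap N f (Additive.ofMul γ) +
      ModularCurve.periodMap N g (Additive.ofMul γ)
    rw [(hF.add hG).periodMap_apply _ UpperHalfPlane.I, hF.periodMap_apply _ UpperHalfPlane.I,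
      hG.periodMap_apply _ UpperHalfPlane.I]
    simp only [Pi.add_apply]
    ring
  map_smul' c f := by
    obtain ⟨F, hF⟩ := exists_goodPrim f
    ext γ
    change ModularCurve.periodMap N (c • f) (Additive.ofMul γ) =
      c • ModularCurve.periodMap N f (Additive.ofMul γ)
    rw [(hF.smul c).periodMap_apply _ UpperHalfPlane.I, hF.periodMap_apply _ UpperHalfPlane.I]
    simp only [Pi.smul_apply, smul_eq_mul]
    ring

theorem existsPeriodMapLinear : ModularCurve.ExistsPeriodMapLinear N :=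
  ⟨periodLin N, fun _ ↦ rfl⟩

/-- Explicit formula for `periodHomPair`. -/
theorem periodHomPair_eq : ModularCurve.periodHomPair N = LinearMap.coprod
        ((LinearMap.id + ModularCurve.Period.charInvolution N ℂ ℂ) ∘ₗ periodLin N)
        ((LinearMap.id - ModularCurve.Period.charInvolution N ℂ ℂ) ∘ₗ periodLin N) := by
  obtain ⟨pml, hpml, h⟩ := ModularCurve.periodHomPair_def N (existsPeriodMapLinear (N := N))
  obtain rfl : pml = periodLin N := LinearMap.ext fun f ↦ hpml f
  exact h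

end cuspform

end Fermat.Agent.S21per
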