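import Mathlib

/-!
# Linear algebra of permutation representations

For commuting-free pairs of permutations `s, u` of a finite set `X` with `s ^ 2 = 1`, `u ^ 3 = 1`
acting transitively, we compute the dimension of the space
`{v | v ∘ s + v = 0, v ∘ u ^ 2 + v ∘ u + v = 0}`.
-/

set_option autoImplicit false

namespace Fermat.Agent.S21par

open Module

variable {X : Type*} [Fintype X] [DecidableEq X]

/-- Pull back of functions along a permutation. -/
noncomputable def pb (π : Equiv.Perm X) : (X → ℂ) →ₗ[ℂ] (X → ℂ) := LinearMap.funLeft ℂ ℂ π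

omit [Fintype X] [DecidableEq X] in
@[simp] theorem pb_apply (π : Equiv.Perm X) (v : X → ℂ) (x : X) : pb π v x = v (π x) := rfl

omit [Fintype X] [DecidableEq X] in
theorem pb_one : pb (1 : Equiv.Perm X) = 1 := by ext; simp

omit [Fintype X] [DecidableEq X] in
theorem pb_mul (π ρ : Equiv.Perm X) : pb (π * ρ) = pb ρ ∘ₗ pb π := by ext; simp

theorem trace_pb (π : Equiv.Perm X) :
    LinearMap.trace ℂ (X → ℂ) (pb π) = (Fintype.card {x // π x = x} : ℂ) := by
  rw [LinearMap.trace_eq_matrix_trace ℂ (Pi.basisFun ℂ X), Matrix.trace, Fintype.card_subtype,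
    Finset.card_filter]
  push_cast
  refine Finset.sum_congr rfl fun x _ => ?_
  rw [Matrix.diag_apply, LinearMap.toMatrix_apply]
  simp [Pi.single_apply]

/-- Sum over powers of a permutation of finite order. -/
noncomputable def nm (π : Equiv.Perm X) (n : ℕ) : (X → ℂ) →ₗ[ℂ] (X → ℂ) :=
  ∑ i ∈ Finset.range n, pb (π ^ i)

omit [Fintype X] [DecidableEq X] in
theorem nm_apply (π : Equiv.Perm X) (n : ℕ) (v : X → ℂ) (x : X) :
    nm π n v x = ∑ i ∈ Finset.range n, v ((π ^ i) x) := by
  simp [nm, LinearMap.sum_apply, Finset.sum_apply]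

omit [Fintype X] [DecidableEq X] in
theorem nm_apply_perm (π : Equiv.Perm X) (n : ℕ) (h : π ^ n = 1) (v : X → ℂ) (x : X) :
    nm π n v (π x) = nm π n v x := by
  rw [nm_apply, nm_apply]
  have h1 : ∀ i, v ((π ^ i) (π x)) = v ((π ^ (i + 1)) x) := fun i => by
    rw [pow_succ, Equiv.Perm.mul_apply]
  simp_rw [h1]
  have h2 := Finset.sum_range_succ (fun i => v ((π ^ i) x)) n
  have h3 := Finset.sum_range_succ' (fun i => v ((π ^ i) x)) n
  rw [h2] at h3
  simp only [h, pow_zero] at h3
  exact (add_right_cancel h3).symm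

theorem finrank_ker_nm (π : Equiv.Perm X) (n : ℕ) (hn : 0 < n) (h : π ^ n = 1) :
    (n : ℂ) * (finrank ℂ (LinearMap.ker (nm π n)) : ℂ)
      + ∑ i ∈ Finset.range n, (Fintype.card {x // (π ^ i) x = x} : ℂ) = n * Fintype.card X := by
  have hn0 : (n : ℂ) ≠ 0 := by exact_mod_cast hn.ne'
  set p : (X → ℂ) →ₗ[ℂ] (X → ℂ) := (n : ℂ)⁻¹ • nm π n with hp
  have hfix : ∀ v : X → ℂ, (∀ x, v (π x) = v x) → p v = v := by
    intro v hv
    have hv' : ∀ i x, v ((π ^ i) x) = v x := by
      intro i
      induction i with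
      | zero => intro x; simp
      | succ i ih => intro x; rw [pow_succ, Equiv.Perm.mul_apply, ih, hv]
    ext x
    rw [hp, LinearMap.smul_apply, Pi.smul_apply, nm_apply]
    simp [hv', hn0]
  have hproj : LinearMap.IsProj (LinearMap.range p) p := by
    constructor
    · intro x; exact LinearMap.mem_range_self p x
    · rintro _ ⟨v, rfl⟩
      apply hfix
      intro x
      rw [hp, LinearMap.smul_apply, Pi.smul_apply, Pi.smul_apply, nm_apply_perm π n h]
  have htr := hproj.trace
  have hker : LinearMap.ker (nm π n) = LinearMap.ker p := by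
    rw [hp, LinearMap.ker_smul _ _ (inv_ne_zero hn0)]
  have hrn := LinearMap.finrank_range_add_finrank_ker p
  rw [Module.finrank_fintype_fun_eq_card] at hrn
  rw [hker, ← hrn, Nat.cast_add]
  have htr2 : LinearMap.trace ℂ (X → ℂ) p =
      (n : ℂ)⁻¹ * ∑ i ∈ Finset.range n, (Fintype.card {x // (π ^ i) x = x} : ℂ) := by
    rw [hp, map_smul, nm, map_sum, smul_eq_mul]
    congr 1
    exact Finset.sum_congr rfl fun i _ => trace_pb _
  rw [← htr, htr2, mul_add, mul_inv_cancel_left₀ hn0, add_comm]

/-- The space of pairs of "period relations". -/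
noncomputable def W (s u : Equiv.Perm X) : Submodule ℂ (X → ℂ) :=
  LinearMap.ker (nm s 2) ⊓ LinearMap.ker (nm u 3)

omit [DecidableEq X] in
theorem finrank_sup_ge (s u : Equiv.Perm X) (hs : s ^ 2 = 1) (hu : u ^ 3 = 1)
    (htr : ∀ l : X → ℂ, (∀ x, l (s x) = l x) → (∀ x, l (u x) = l x) → ∃ c, ∀ x, l x = c) :
    Fintype.card X ≤ finrank ℂ (LinearMap.ker (nm s 2) ⊔ LinearMap.ker (nm u 3) :
      Submodule ℂ (X → ℂ)) + 1 := by
  classical
  set A := LinearMap.ker (nm s 2)
  set B := LinearMap.ker (nm u 3)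
  have h1 := Subspace.finrank_add_finrank_dualAnnihilator_eq (A ⊔ B)
  rw [Module.finrank_fintype_fun_eq_card] at h1
  rw [← h1]
  refine Nat.add_le_add_left ?_ _
  -- a functional killing `A` and `B` is a multiple of the sum functional
  have key : ∀ l ∈ (A ⊔ B).dualAnnihilator, ∀ (π : Equiv.Perm X) (n : ℕ), π ^ n = 1 →
      LinearMap.ker (nm π n) ≤ A ⊔ B → ∀ x, l (Pi.single (π x) 1) = l (Pi.single x 1) := by
    intro l hl π n hπ hle x
    rw [Submodule.mem_dualAnnihilator] at hl
    have hmem : (Pi.single (π x) 1 - Pi.single x 1 : X → ℂ) ∈ A ⊔ B := by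
      apply hle
      rw [LinearMap.mem_ker]
      ext y
      rw [map_sub, Pi.sub_apply, Pi.zero_apply, sub_eq_zero]
      -- `single (π x)` is the pull-back of `single x` along `π⁻¹`
      have h2 : ∀ z, (Pi.single (π x) 1 : X → ℂ) (π z) = (Pi.single x 1 : X → ℂ) z := by
        intro z
        by_cases hz : z = x
        · subst hz; simp
        · rw [Pi.single_eq_of_ne hz, Pi.single_eq_of_ne]
          exact fun h => hz (π.injective h)
      have h3 : nm π n (Pi.single (π x) 1) (π y) = nm π n (Pi.single x 1) y := by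
        rw [nm_apply, nm_apply]
        refine Finset.sum_congr rfl fun i _ => ?_
        have : (π ^ i) (π y) = π ((π ^ i) y) := by
          rw [← Equiv.Perm.mul_apply, ← Equiv.Perm.mul_apply, (Commute.pow_self π i).eq]
        rw [this, h2]
      rw [← h3, nm_apply_perm π n hπ]
    have := hl _ hmem
    rwa [map_sub, sub_eq_zero] at this
  -- the annihilator is contained in a one dimensional space
  set σ : Module.Dual ℂ (X → ℂ) := ∑ x, LinearMap.proj x with hσ
  have hle : (A ⊔ B).dualAnnihilator ≤ Submodule.span ℂ {σ} := by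
    intro l hl
    obtain ⟨c, hc⟩ := htr (fun x => l (Pi.single x 1))
      (fun x => key l hl s 2 hs le_sup_left x) (fun x => key l hl u 3 hu le_sup_right x)
    rw [Submodule.mem_span_singleton]
    refine ⟨c, ?_⟩
    apply LinearMap.pi_ext'
    intro x
    apply LinearMap.ext_ring
    have := hc x
    simp only [LinearMap.comp_apply, LinearMap.single_apply]
    rw [this, LinearMap.smul_apply, hσ, LinearMap.sum_apply]
    simp [Pi.single_apply]
  calc finrank ℂ (A ⊔ B).dualAnnihilator ≤ finrank ℂ (Submodule.span ℂ {σ}) :=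
        Submodule.finrank_mono hle
    _ ≤ 1 := by
        refine (finrank_span_le_card _).trans ?_
        simp


/-- Dimension bound for the space of period relations, in terms of fixed points. -/
theorem finrank_W_le (s u : Equiv.Perm X) (hs : s ^ 2 = 1) (hu : u ^ 3 = 1)
    (htr : ∀ l : X → ℂ, (∀ x, l (s x) = l x) → (∀ x, l (u x) = l x) → ∃ c, ∀ x, l x = c) :
    (finrank ℂ (W s u) : ℚ) ≤ 1 + (Fintype.card X : ℚ) / 6
      - (Fintype.card {x // s x = x} : ℚ) / 2 - 2 * (Fintype.card {x // u x = x} : ℚ) / 3 := by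
  have h1 := Submodule.finrank_sup_add_finrank_inf_eq (LinearMap.ker (nm s 2))
    (LinearMap.ker (nm u 3))
  have h2 := finrank_sup_ge s u hs hu htr
  have hA := finrank_ker_nm s 2 (by norm_num) hs
  have hB := finrank_ker_nm u 3 (by norm_num) hu
  have hu2 : Fintype.card {x // (u ^ 2) x = x} = Fintype.card {x // u x = x} := by
    refine Fintype.card_congr (Equiv.subtypeEquivRight fun x => ?_)
    constructor
    · intro h
      have h3 : (u ^ 3) x = x := by rw [hu]; rfl
      rw [pow_succ', Equiv.Perm.mul_apply, h] at h3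
      exact h3
    · intro h
      rw [pow_two, Equiv.Perm.mul_apply, h, h]
  have hone : Fintype.card {x : X // (1 : Equiv.Perm X) x = x} = Fintype.card X := by
    rw [← Nat.card_eq_fintype_card, ← Nat.card_eq_fintype_card]
    exact Nat.card_congr (Equiv.subtypeUnivEquiv fun _ => rfl)
  rw [Finset.sum_range_succ, Finset.sum_range_one] at hA
  rw [Finset.sum_range_succ, Finset.sum_range_succ, Finset.sum_range_one] at hB
  rw [pow_zero, pow_one, hone] at hA
  rw [pow_zero, pow_one, hone, hu2] at hB
  have hA' : (2 : ℕ) * finrank ℂ (LinearMap.ker (nm s 2)) +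
      (Fintype.card X + Fintype.card {x // s x = x}) = 2 * Fintype.card X := by
    exact_mod_cast hA
  have hB' : (3 : ℕ) * finrank ℂ (LinearMap.ker (nm u 3)) +
      (Fintype.card X + Fintype.card {x // u x = x} + Fintype.card {x // u x = x})
        = 3 * Fintype.card X := by
    exact_mod_cast hB
  have hA'' : (2 : ℚ) * finrank ℂ (LinearMap.ker (nm s 2)) +
      (Fintype.card X + Fintype.card {x // s x = x}) = 2 * Fintype.card X := by
    exact_mod_cast hA'
  have hB'' : (3 : ℚ) * finrank ℂ (LinearMap.ker (nm u 3)) +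
      (Fintype.card X + Fintype.card {x // u x = x} + Fintype.card {x // u x = x})
        = 3 * Fintype.card X := by
    exact_mod_cast hB'
  have h1' : (finrank ℂ (LinearMap.ker (nm s 2) ⊔ LinearMap.ker (nm u 3) :
      Submodule ℂ (X → ℂ)) : ℚ) + finrank ℂ (W s u) = finrank ℂ (LinearMap.ker (nm s 2)) +
        finrank ℂ (LinearMap.ker (nm u 3)) := by
    exact_mod_cast h1
  have h2' : (Fintype.card X : ℚ) ≤ finrank ℂ (LinearMap.ker (nm s 2) ⊔ LinearMap.ker (nm u 3) :
      Submodule ℂ (X → ℂ)) + 1 := by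
    exact_mod_cast h2
  linarith

end Fermat.Agent.S21par
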