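import Mathlib
import Fermat.Prelude.Def_ModularCurve_PeriodHomPair
import Fermat.Agent.S21.PermLin

/-!
# Upper bound for the dimension of parabolic cohomology

For a finite index subgroup `Γ` of `SL(2, ℤ)` containing `-1`, the space of parabolic
homomorphisms `Γ → ℂ` has dimension at most `2 + d/6 - e₂/2 - 2e₃/3 - c`, where `d` is the index,
`e₂`, `e₃` the numbers of fixed points on `SL(2, ℤ) ⧸ Γ` of `S` and `TS`, and `c` the number
of orbits of `T`.
-/

set_option autoImplicit false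

namespace Fermat.Agent.S21par

open Module ModularCurve.Period ModularGroup
open scoped MatrixGroups

variable {Γ : Subgroup SL(2, ℤ)}

/-- The element of `Γ` measuring the failure of the chosen section to be equivariant. -/
noncomputable def gam (g : SL(2, ℤ)) (x : SL(2, ℤ) ⧸ Γ) : Γ :=
  ⟨(g • x).out⁻¹ * (g * x.out), by
    rw [← QuotientGroup.eq, QuotientGroup.out_eq', ← smul_eq_mul, ← MulAction.Quotient.smul_mk,
      QuotientGroup.out_eq']⟩

theorem gam_mul (g h : SL(2, ℤ)) (x : SL(2, ℤ) ⧸ Γ) :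
    gam (g * h) x = gam g (h • x) * gam h x := by
  apply Subtype.ext
  simp only [gam, mul_smul, Subgroup.coe_mul]
  group

theorem coe_gam_of_fix {g : SL(2, ℤ)} {x : SL(2, ℤ) ⧸ Γ} (h : g • x = x) :
    ((gam g x : Γ) : SL(2, ℤ)) = x.out⁻¹ * g * x.out := by
  simp only [gam, h, mul_assoc]

/-- The Shapiro cocycle attached to a homomorphism. -/
noncomputable def coc (g : SL(2, ℤ)) :
    (Additive Γ →+ ℂ) →ₗ[ℂ] ((SL(2, ℤ) ⧸ Γ) → ℂ) where
  toFun φ x := φ (Additive.ofMul (gam g x))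
  map_add' _ _ := rfl
  map_smul' _ _ := rfl

theorem coc_apply (g : SL(2, ℤ)) (φ : Additive Γ →+ ℂ) (x : SL(2, ℤ) ⧸ Γ) :
    coc g φ x = φ (Additive.ofMul (gam g x)) := rfl

theorem coc_mul (g h : SL(2, ℤ)) (φ : Additive Γ →+ ℂ) (x : SL(2, ℤ) ⧸ Γ) :
    coc (g * h) φ x = coc g φ (h • x) + coc h φ x := by
  rw [coc_apply, gam_mul, ofMul_mul, map_add]; rfl

theorem coc_of_parabolic {φ : Additive Γ →+ ℂ} (hφ : IsParabolicHom Γ φ) {g : SL(2, ℤ)}
    {x : SL(2, ℤ) ⧸ Γ} (h : g • x = x)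
    (hg : ((g : SL(2, ℤ)) : Matrix (Fin 2) (Fin 2) ℤ).trace ^ 2 = 4) : coc g φ x = 0 := by
  rw [coc_apply]
  apply hφ
  rw [coe_gam_of_fix h]
  have : (((x.out)⁻¹ * g * x.out : SL(2, ℤ)) : Matrix (Fin 2) (Fin 2) ℤ).trace
      = ((g : SL(2, ℤ)) : Matrix (Fin 2) (Fin 2) ℤ).trace := by
    rw [Matrix.SpecialLinearGroup.coe_mul, Matrix.trace_mul_comm,
      ← Matrix.SpecialLinearGroup.coe_mul, ← mul_assoc, mul_inv_cancel, one_mul]
  rw [this, hg]

/-- Permutation of `SL(2, ℤ) ⧸ Γ` given by an element of `SL(2, ℤ)`. -/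
def pm (Γ : Subgroup SL(2, ℤ)) (g : SL(2, ℤ)) : Equiv.Perm (SL(2, ℤ) ⧸ Γ) :=
  MulAction.toPermHom SL(2, ℤ) (SL(2, ℤ) ⧸ Γ) g

theorem pm_apply (g : SL(2, ℤ)) (x : SL(2, ℤ) ⧸ Γ) : pm Γ g x = g • x := rfl

theorem pm_mul (g h : SL(2, ℤ)) : pm Γ (g * h) = pm Γ g * pm Γ h := map_mul _ _ _

theorem pm_pow (g : SL(2, ℤ)) (n : ℕ) : pm Γ (g ^ n) = pm Γ g ^ n := map_pow _ _ _

theorem pm_neg_one (h : -1 ∈ Γ) : pm Γ (-1) = 1 := by
  ext x
  induction x using QuotientGroup.induction_on with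
  | H g =>
    rw [pm_apply, Equiv.Perm.one_apply, MulAction.Quotient.smul_mk, QuotientGroup.eq, smul_eq_mul]
    simpa using h

theorem neg_one_smul' (h : -1 ∈ Γ) (x : SL(2, ℤ) ⧸ Γ) : (-1 : SL(2, ℤ)) • x = x := by
  rw [← pm_apply, pm_neg_one h]; rfl

theorem S_mul_S : (S * S : SL(2, ℤ)) = -1 := by
  apply Subtype.ext
  rw [Matrix.SpecialLinearGroup.coe_mul, coe_S, Matrix.SpecialLinearGroup.coe_neg,
    Matrix.SpecialLinearGroup.coe_one]
  decide

theorem TS_cube : ((T * S) * (T * S) * (T * S) : SL(2, ℤ)) = -1 := by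
  apply Subtype.ext
  simp only [Matrix.SpecialLinearGroup.coe_mul, coe_S, coe_T, Matrix.SpecialLinearGroup.coe_neg,
    Matrix.SpecialLinearGroup.coe_one]
  decide

/-- A function invariant under `S` and `T` is constant. -/
theorem const_of_invariant (l : (SL(2, ℤ) ⧸ Γ) → ℂ) (hS : ∀ x, l (S • x) = l x)
    (hT : ∀ x, l (T • x) = l x) : ∀ x, l x = l ((1 : SL(2, ℤ)) : SL(2, ℤ) ⧸ Γ) := by
  have key : ∀ g : SL(2, ℤ), ∀ x, l (g • x) = l x := by
    intro g
    have hg : g ∈ Subgroup.closure {S, T} := by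
      rw [SpecialLinearGroup.SL2Z_generators]; exact Subgroup.mem_top g
    induction hg using Subgroup.closure_induction with
    | mem g hg =>
      rcases hg with rfl | rfl
      · exact hS
      · exact hT
    | one => intro x; rw [one_smul]
    | mul g h _ _ ihg ihh => intro x; rw [mul_smul, ihg, ihh]
    | inv g _ ih => intro x; rw [← ih (g⁻¹ • x), smul_inv_smul]
  intro x
  induction x using QuotientGroup.induction_on with
  | H g =>
    rw [← key g ((1 : SL(2, ℤ)) : SL(2, ℤ) ⧸ Γ), MulAction.Quotient.smul_mk, smul_eq_mul, mul_one]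

section Main

variable (Γ)

/-- Order of `T` on the cosets. -/
noncomputable def ordT : ℕ := orderOf (pm Γ T)

theorem pmT_pow_ordT : pm Γ T ^ ordT Γ = 1 := pow_orderOf_eq_one _

theorem ordT_pos [Γ.FiniteIndex] : 0 < ordT Γ := by
  have : Finite (Equiv.Perm (SL(2, ℤ) ⧸ Γ)) := inferInstance
  exact orderOf_pos _

/-- The weight vector trivialising the cocycle on `T`. -/
noncomputable def vv : (Additive Γ →+ ℂ) →ₗ[ℂ] ((SL(2, ℤ) ⧸ Γ) → ℂ) :=
  ((ordT Γ : ℂ)⁻¹ • ∑ j ∈ Finset.range (ordT Γ), (j : ℂ) • pb (pm Γ T ^ j)) ∘ₗ coc T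

theorem vv_apply (φ : Additive Γ →+ ℂ) (x : SL(2, ℤ) ⧸ Γ) :
    vv Γ φ x = (ordT Γ : ℂ)⁻¹ * ∑ j ∈ Finset.range (ordT Γ), (j : ℂ) *
      coc T φ ((pm Γ T ^ j) x) := by
  simp [vv, Finset.sum_apply]

variable {Γ}

theorem coc_pow (g : SL(2, ℤ)) (φ : Additive Γ →+ ℂ) (n : ℕ) (x : SL(2, ℤ) ⧸ Γ) :
    coc (g ^ n) φ x = ∑ j ∈ Finset.range n, coc g φ ((pm Γ g ^ j) x) := by
  induction n with
  | zero =>
    have h := coc_mul (1 : SL(2, ℤ)) 1 φ x
    rw [mul_one, one_smul] at h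
    simpa using h
  | succ n ih =>
    rw [Finset.sum_range_succ, ← ih, pow_succ', coc_mul, add_comm, ← pm_pow, pm_apply]

theorem vv_T [Γ.FiniteIndex] {φ : Additive Γ →+ ℂ} (hφ : IsParabolicHom Γ φ)
    (x : SL(2, ℤ) ⧸ Γ) : vv Γ φ (T • x) - vv Γ φ x = coc T φ x := by
  have hn0 : (ordT Γ : ℂ) ≠ 0 := by exact_mod_cast (ordT_pos Γ).ne'
  have hsum : ∑ j ∈ Finset.range (ordT Γ), coc T φ ((pm Γ T ^ j) x) = 0 := by
    rw [← coc_pow]
    apply coc_of_parabolic hφ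
    · rw [← pm_apply, pm_pow, pmT_pow_ordT]; rfl
    · rw [← zpow_natCast, coe_T_zpow]
      simp [Matrix.trace_fin_two]
  have h1 : ∀ j, (pm Γ T ^ j) (T • x) = (pm Γ T ^ (j + 1)) x := fun j => by
    rw [pow_succ, Equiv.Perm.mul_apply, pm_apply]
  have key : ∑ j ∈ Finset.range (ordT Γ), (j : ℂ) * coc T φ ((pm Γ T ^ j) (T • x))
      = ∑ j ∈ Finset.range (ordT Γ), (j : ℂ) * coc T φ ((pm Γ T ^ j) x)
        + ordT Γ * coc T φ x := by
    simp_rw [h1]
    set a : ℕ → ℂ := fun j => coc T φ ((pm Γ T ^ j) x) with ha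
    have haN : a (ordT Γ) = coc T φ x := by
      simp only [ha, pmT_pow_ordT]; rfl
    have h2 := Finset.sum_range_succ (fun j : ℕ => ((j : ℂ) - 1) * a j) (ordT Γ)
    have h3 := Finset.sum_range_succ' (fun j : ℕ => ((j : ℂ) - 1) * a j) (ordT Γ)
    have h4 : ∑ j ∈ Finset.range (ordT Γ), ((j : ℂ) - 1) * a j
        = ∑ j ∈ Finset.range (ordT Γ), (j : ℂ) * a j := by
      simp_rw [sub_mul, one_mul, Finset.sum_sub_distrib]
      rw [show ∑ j ∈ Finset.range (ordT Γ), a j = 0 from hsum, sub_zero]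
    have ha0 : a 0 = coc T φ x := by simp [ha]
    rw [h2, h4, haN] at h3
    push_cast at h3
    simp only [add_sub_cancel_right, zero_sub] at h3
    rw [ha0] at h3
    change ∑ j ∈ Finset.range (ordT Γ), (j : ℂ) * a (j + 1) = _
    linear_combination -h3
  rw [vv_apply, vv_apply, key, mul_add, inv_mul_cancel_left₀ hn0]
  ring

/-- The normalised cocycle, vanishing on `T`. -/
theorem coc_eq_of_ST {φ : Additive Γ →+ ℂ} {v : (SL(2, ℤ) ⧸ Γ) → ℂ}
    (hS : ∀ x, coc S φ x = v (S • x) - v x) (hT : ∀ x, coc T φ x = v (T • x) - v x) :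
    φ = 0 := by
  have key : ∀ g : SL(2, ℤ), ∀ x, coc g φ x = v (g • x) - v x := by
    intro g
    have hg : g ∈ Subgroup.closure {S, T} := by
      rw [SpecialLinearGroup.SL2Z_generators]; exact Subgroup.mem_top g
    induction hg using Subgroup.closure_induction with
    | mem g hg =>
      rcases hg with rfl | rfl
      · exact hS
      · exact hT
    | one =>
      intro x
      have h := coc_mul (1 : SL(2, ℤ)) 1 φ x
      rw [mul_one, one_smul] at h
      rw [one_smul, sub_self]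
      simpa using h
    | mul g h _ _ ihg ihh => intro x; rw [coc_mul, ihg, ihh, mul_smul]; ring
    | inv g _ ih =>
      intro x
      have h0 : coc (1 : SL(2, ℤ)) φ x = 0 := by
        have h := coc_mul (1 : SL(2, ℤ)) 1 φ x
        rw [mul_one, one_smul] at h
        simpa using h
      have h1 := coc_mul g g⁻¹ φ x
      rw [mul_inv_cancel, h0, ih, smul_inv_smul] at h1
      linear_combination -h1
  refine AddMonoidHom.ext fun γ => ?_
  obtain ⟨γ, rfl⟩ := Additive.ofMul.surjective γ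
  set x0 : SL(2, ℤ) ⧸ Γ := ((1 : SL(2, ℤ)) : SL(2, ℤ) ⧸ Γ) with hx0
  have hfix : (γ : SL(2, ℤ)) • x0 = x0 := by
    rw [hx0, MulAction.Quotient.smul_mk, QuotientGroup.eq, smul_eq_mul, mul_one, mul_one]
    exact Γ.inv_mem γ.2
  have hout : x0.out ∈ Γ := by
    have : ((x0.out : SL(2, ℤ)) : SL(2, ℤ) ⧸ Γ) = ((1 : SL(2, ℤ)) : SL(2, ℤ) ⧸ Γ) :=
      QuotientGroup.out_eq' x0
    rw [QuotientGroup.eq, mul_one] at this
    exact (Subgroup.inv_mem_iff Γ).mp this
  have h1 := key γ x0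
  rw [hfix, sub_self, coc_apply] at h1
  have h2 : gam (γ : SL(2, ℤ)) x0 = ⟨x0.out, hout⟩⁻¹ * γ * ⟨x0.out, hout⟩ := by
    apply Subtype.ext
    rw [coe_gam_of_fix hfix]; rfl
  rw [h2, ofMul_mul, ofMul_mul, ofMul_inv, map_add, map_add, map_neg] at h1
  rw [AddMonoidHom.zero_apply]
  linear_combination h1

variable (Γ)

/-- Functions on cosets invariant under `T`. -/
def VT : Submodule ℂ ((SL(2, ℤ) ⧸ Γ) → ℂ) where
  carrier := {v | ∀ x, v (T • x) = v x}
  add_mem' := fun ha hb x => by simp only [Pi.add_apply, ha x, hb x]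
  zero_mem' := fun _ => rfl
  smul_mem' := fun c _ ha x => by simp only [Pi.smul_apply, ha x]

/-- The main map from parabolic classes and `T`-invariant vectors to period relations. -/
noncomputable def Psi :
    (parabolicHoms ℂ Γ ℂ × VT Γ) →ₗ[ℂ] ((SL(2, ℤ) ⧸ Γ) → ℂ) :=
  LinearMap.coprod
    ((coc S - (pb (pm Γ S) - 1) ∘ₗ vv Γ) ∘ₗ (parabolicHoms ℂ Γ ℂ).subtype)
    ((pb (pm Γ S) - 1) ∘ₗ (VT Γ).subtype)

theorem Psi_apply (φ : parabolicHoms ℂ Γ ℂ) (v : VT Γ) (x : SL(2, ℤ) ⧸ Γ) :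
    Psi Γ (φ, v) x = coc S (φ : Additive Γ →+ ℂ) x
      - (vv Γ (φ : Additive Γ →+ ℂ) (S • x) - vv Γ (φ : Additive Γ →+ ℂ) x)
      + ((v : (SL(2, ℤ) ⧸ Γ) → ℂ) (S • x) - (v : (SL(2, ℤ) ⧸ Γ) → ℂ) x) := by
  simp [Psi, pm_apply]

theorem Psi_mem [Γ.FiniteIndex] (h1 : -1 ∈ Γ) (a : parabolicHoms ℂ Γ ℂ × VT Γ) :
    Psi Γ a ∈ W (pm Γ S) (pm Γ (T * S)) := by
  obtain ⟨φ, v⟩ := a
  have hφ : IsParabolicHom Γ (φ : Additive Γ →+ ℂ) := φ.2
  -- the modified cocycle
  set u : (SL(2, ℤ) ⧸ Γ) → ℂ := fun x => vv Γ (φ : Additive Γ →+ ℂ) x - (v : (SL(2, ℤ) ⧸ Γ) → ℂ) x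
    with hu
  set c : SL(2, ℤ) → (SL(2, ℤ) ⧸ Γ) → ℂ := fun g x =>
    coc g (φ : Additive Γ →+ ℂ) x - (u (g • x) - u x) with hc
  have hmul : ∀ g h x, c (g * h) x = c g (h • x) + c h x := by
    intro g h x
    simp only [hc, coc_mul, mul_smul]
    ring
  have hT : ∀ x, c T x = 0 := by
    intro x
    have hv : (v : (SL(2, ℤ) ⧸ Γ) → ℂ) (T • x) = (v : (SL(2, ℤ) ⧸ Γ) → ℂ) x := v.2 x
    have := vv_T hφ x
    simp only [hc, hu]
    rw [hv]
    linear_combination -this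
  have hneg : ∀ x, c (-1) x = 0 := by
    intro x
    have h2 : coc (-1) (φ : Additive Γ →+ ℂ) x = 0 := by
      apply coc_of_parabolic hφ (neg_one_smul' h1 x)
      simp
    simp only [hc, neg_one_smul' h1 x, h2]
    ring
  have hPsi : ∀ x, Psi Γ (φ, v) x = c S x := by
    intro x
    rw [Psi_apply]
    simp only [hc, hu]
    ring
  have hS : ∀ x, c (T * S) x = c S x := by
    intro x
    rw [hmul, hT, zero_add]
  rw [W, Submodule.mem_inf, LinearMap.mem_ker, LinearMap.mem_ker]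
  constructor
  · ext x
    rw [nm_apply, Finset.sum_range_succ, Finset.sum_range_one, pow_zero, pow_one,
      Equiv.Perm.one_apply, hPsi, hPsi, pm_apply, add_comm, ← hmul, S_mul_S, hneg]
    rfl
  · ext x
    rw [nm_apply, Finset.sum_range_succ, Finset.sum_range_succ, Finset.sum_range_one, pow_zero,
      pow_one, Equiv.Perm.one_apply, hPsi, hPsi, hPsi, pow_two, Equiv.Perm.mul_apply, pm_apply,
      pm_apply, ← hS, ← hS ((T * S) • x), ← hS ((T * S) • (T * S) • x)]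
    have h3 := hmul (T * S * (T * S)) (T * S) x
    rw [TS_cube, hneg, hmul] at h3
    rw [Pi.zero_apply]
    linear_combination -h3

theorem Psi_ker [Γ.FiniteIndex] {φ : parabolicHoms ℂ Γ ℂ} {v : VT Γ} (h : Psi Γ (φ, v) = 0) :
    φ = 0 ∧ ∃ c : ℂ, ∀ x, (v : (SL(2, ℤ) ⧸ Γ) → ℂ) x = c := by
  have hφ : IsParabolicHom Γ (φ : Additive Γ →+ ℂ) := φ.2
  have h' : ∀ x, Psi Γ (φ, v) x = 0 := fun x => by rw [h]; rfl
  simp only [Psi_apply] at h'
  have hzero : (φ : Additive Γ →+ ℂ) = 0 := by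
    refine coc_eq_of_ST (v := fun x => vv Γ (φ : Additive Γ →+ ℂ) x
      - (v : (SL(2, ℤ) ⧸ Γ) → ℂ) x) (fun x => ?_) (fun x => ?_)
    · linear_combination h' x
    · have hv : (v : (SL(2, ℤ) ⧸ Γ) → ℂ) (T • x) = (v : (SL(2, ℤ) ⧸ Γ) → ℂ) x := v.2 x
      have := vv_T hφ x
      rw [hv]
      linear_combination -this
  refine ⟨Subtype.ext hzero, _, const_of_invariant (v : (SL(2, ℤ) ⧸ Γ) → ℂ) (fun x => ?_) v.2⟩
  have h3 := h' x
  rw [hzero] at h3
  simp only [map_zero, Pi.zero_apply, sub_zero, zero_add] at h3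
  linear_combination h3

instance [Γ.FiniteIndex] : FiniteDimensional ℂ (parabolicHoms ℂ Γ ℂ) := by
  have hinj : Function.Injective (Psi Γ ∘ₗ LinearMap.inl ℂ (parabolicHoms ℂ Γ ℂ) (VT Γ)) := by
    rw [← LinearMap.ker_eq_bot, LinearMap.ker_eq_bot']
    intro φ hφ
    exact (Psi_ker Γ (v := 0) hφ).1
  have : Finite (SL(2, ℤ) ⧸ Γ) := inferInstance
  exact Module.Finite.of_injective _ hinj

theorem finrank_par_add_le [Γ.FiniteIndex] (h1 : -1 ∈ Γ) :
    finrank ℂ (parabolicHoms ℂ Γ ℂ) + finrank ℂ (VT Γ) ≤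
      finrank ℂ (W (pm Γ S) (pm Γ (T * S))) + 1 := by
  classical
  have : Finite (SL(2, ℤ) ⧸ Γ) := inferInstance
  have : FiniteDimensional ℂ (VT Γ) := inferInstance
  rw [← Module.finrank_prod, ← LinearMap.finrank_range_add_finrank_ker (Psi Γ)]
  have hr : LinearMap.range (Psi Γ) ≤ W (pm Γ S) (pm Γ (T * S)) := by
    rintro _ ⟨a, rfl⟩
    exact Psi_mem Γ h1 a
  have hk : LinearMap.ker (Psi Γ) ≤ Submodule.span ℂ
      {((0, ⟨fun _ => 1, fun _ => rfl⟩) : parabolicHoms ℂ Γ ℂ × VT Γ)} := by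
    rintro ⟨φ, v⟩ h
    rw [LinearMap.mem_ker] at h
    obtain ⟨hφ, c, hc⟩ := Psi_ker Γ h
    rw [Submodule.mem_span_singleton]
    refine ⟨c, ?_⟩
    rw [hφ]
    ext x
    · simp
    · simp [hc]
  refine Nat.add_le_add (Submodule.finrank_mono hr) ?_
  calc finrank ℂ (LinearMap.ker (Psi Γ)) ≤ finrank ℂ (Submodule.span ℂ
      {((0, ⟨fun _ => 1, fun _ => rfl⟩) : parabolicHoms ℂ Γ ℂ × VT Γ)}) :=
        Submodule.finrank_mono hk
    _ ≤ 1 := (finrank_span_le_card _).trans (by simp)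

theorem finrank_VT [Γ.FiniteIndex] : finrank ℂ (VT Γ) =
    Nat.card (MulAction.orbitRel.Quotient (Subgroup.zpowers T) (SL(2, ℤ) ⧸ Γ)) := by
  classical
  set O := MulAction.orbitRel.Quotient (Subgroup.zpowers T) (SL(2, ℤ) ⧸ Γ)
  have hfin : Finite O := Quotient.finite _
  have : Fintype O := Fintype.ofFinite O
  have key : ∀ v ∈ VT Γ, ∀ g ∈ Subgroup.zpowers T, ∀ x, v (g • x) = v x := by
    intro v hv g hg
    have hn : ∀ n : ℕ, ∀ x, v (T ^ n • x) = v x := by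
      intro n
      induction n with
      | zero => intro x; rw [pow_zero, one_smul]
      | succ n ih => intro x; rw [pow_succ, mul_smul, ih, hv]
    obtain ⟨n, rfl⟩ := Subgroup.mem_zpowers_iff.mp hg
    intro x
    rcases n with n | n
    · rw [Int.ofNat_eq_natCast, zpow_natCast]; exact hn n x
    · rw [zpow_negSucc]
      have := hn (n + 1) ((T ^ (n + 1))⁻¹ • x)
      rw [smul_inv_smul] at this
      exact this.symm
  let e : VT Γ ≃ₗ[ℂ] (O → ℂ) :=
    { toFun := fun v o => Quotient.liftOn' o (v : (SL(2, ℤ) ⧸ Γ) → ℂ) (by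
        intro a b hab
        obtain ⟨⟨g, hg⟩, hgb⟩ := hab
        rw [← hgb]
        exact key v v.2 g hg b)
      map_add' := by
        intro v w
        ext o
        induction o using Quotient.inductionOn'
        rfl
      map_smul' := by
        intro c v
        ext o
        induction o using Quotient.inductionOn'
        rfl
      invFun := fun w => ⟨fun x => w (Quotient.mk'' x), by
        intro x
        exact congrArg w (Quotient.sound' ⟨⟨T, Subgroup.mem_zpowers T⟩, rfl⟩)⟩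
      left_inv := by
        intro v
        rfl
      right_inv := by
        intro w
        ext o
        induction o using Quotient.inductionOn'
        rfl }
  rw [e.finrank_eq, Module.finrank_fintype_fun_eq_card, Nat.card_eq_fintype_card]

/-- **Upper bound for parabolic cohomology.** -/
theorem finrank_par_le [Γ.FiniteIndex] (h1 : -1 ∈ Γ) :
    (finrank ℂ (parabolicHoms ℂ Γ ℂ) : ℚ) ≤ 2 + (Nat.card (SL(2, ℤ) ⧸ Γ) : ℚ) / 6
      - (Nat.card {x : SL(2, ℤ) ⧸ Γ // S • x = x} : ℚ) / 2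
      - 2 * (Nat.card {x : SL(2, ℤ) ⧸ Γ // (T * S) • x = x} : ℚ) / 3
      - Nat.card (MulAction.orbitRel.Quotient (Subgroup.zpowers T) (SL(2, ℤ) ⧸ Γ)) := by
  classical
  have hX : Finite (SL(2, ℤ) ⧸ Γ) := inferInstance
  have : Fintype (SL(2, ℤ) ⧸ Γ) := Fintype.ofFinite _
  have hA := finrank_par_add_le Γ h1
  have hs : pm Γ S ^ 2 = 1 := by
    rw [← pm_pow, pow_two, S_mul_S, pm_neg_one h1]
  have hu : pm Γ (T * S) ^ 3 = 1 := by
    rw [← pm_pow, pow_succ, pow_two, TS_cube, pm_neg_one h1]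
  have hB := finrank_W_le (pm Γ S) (pm Γ (T * S)) hs hu (fun l hl1 hl2 =>
    ⟨_, const_of_invariant l hl1 (fun x => by
      have h2 := hl2 (S⁻¹ • x)
      rw [pm_apply, ← mul_smul, mul_assoc, mul_inv_cancel, mul_one] at h2
      have h3 := hl1 (S⁻¹ • x)
      rw [pm_apply, smul_inv_smul] at h3
      rw [h2, h3])⟩)
  rw [finrank_VT] at hA
  have hA' : (finrank ℂ (parabolicHoms ℂ Γ ℂ) : ℚ) +
      Nat.card (MulAction.orbitRel.Quotient (Subgroup.zpowers T) (SL(2, ℤ) ⧸ Γ)) ≤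
      finrank ℂ (W (pm Γ S) (pm Γ (T * S))) + 1 := by exact_mod_cast hA
  have e1 : Fintype.card {x // pm Γ S x = x} = Nat.card {x : SL(2, ℤ) ⧸ Γ // S • x = x} := by
    rw [Nat.card_eq_fintype_card]; rfl
  have e2 : Fintype.card {x // pm Γ (T * S) x = x} =
      Nat.card {x : SL(2, ℤ) ⧸ Γ // (T * S) • x = x} := by
    rw [Nat.card_eq_fintype_card]; rfl
  rw [e1, e2, ← Nat.card_eq_fintype_card (α := SL(2, ℤ) ⧸ Γ)] at hB
  linarith

end Main

end Fermat.Agent.S21par
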