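import Fermat.Agent.S21.PeriodParabolic

set_option autoImplicit false
set_option linter.unusedSectionVars false

/-!
Maximum principle: a holomorphic function on the upper half plane, bounded and periodic at all
cusps, with real part invariant under `Gamma0 N`, is constant.
-/

open UpperHalfPlane Filter Topology Complex Function CongruenceSubgroup
open scoped MatrixGroups Manifold ModularForm Real

noncomputable section

namespace Fermat.Agent.S21per

local notation "𝕢" => Function.Periodic.qParam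

/-- A holomorphic function, periodic and bounded at all cusps. -/
structure Nice (N : ℕ) (H : ℍ → ℂ) : Prop where
  mdiff : MDiff H
  per : ∀ (δ : SL(2, ℤ)) (w : ℍ), H (δ • ((N : ℝ) +ᵥ w)) = H (δ • w)
  bdd : ∀ δ : SL(2, ℤ), IsBoundedAtImInfty (fun w : ℍ ↦ H (δ • w))

lemma mdiff_comp_smul {H : ℍ → ℂ} (hH : MDiff H) (δ : SL(2, ℤ)) :
    MDiff (fun w : ℍ ↦ H (δ • w)) := by
  have hdet : (0 : ℝ) < ((δ : GL (Fin 2) ℝ)).det.val := by simp
  exact hH.comp (mdifferentiable_smul hdet)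

lemma mdiff_exp {H : ℍ → ℂ} (hH : MDiff H) : MDiff (fun w : ℍ ↦ Complex.exp (H w)) := by
  rw [UpperHalfPlane.mdifferentiable_iff] at hH ⊢
  exact hH.cexp

section max

variable {N : ℕ} [NeZero N] {H : ℍ → ℂ}

/-- The coset type. -/
abbrev QQ (N : ℕ) := SL(2, ℤ) ⧸ Gamma0 N

instance : Finite (QQ N) := Subgroup.finite_quotient_of_finiteIndex

instance : Fintype (QQ N) := Fintype.ofFinite _

/-- the component functions -/
def comp (H : ℍ → ℂ) (q : QQ N) (w : ℍ) : ℂ := Complex.exp (H (q.out⁻¹ • w))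

lemma re_comp_eq (hinv : ∀ γ ∈ Gamma0 N, ∀ z : ℍ, (H (γ • z)).re = (H z).re)
    (g : SL(2, ℤ)) (w : ℍ) :
    (H (((g : QQ N).out)⁻¹ • w)).re = (H (g⁻¹ • w)).re := by
  obtain ⟨γ, hγ⟩ := QuotientGroup.mk_out_eq_mul (Gamma0 N) g
  rw [hγ, mul_inv_rev, mul_smul]
  exact hinv _ (inv_mem γ.2) _

lemma norm_comp (q : QQ N) (w : ℍ) :
    ‖comp H q w‖ = Real.exp ((H (q.out⁻¹ • w)).re) := by
  rw [comp, Complex.norm_exp]

/-- sum of squares of the norms of the components -/
lemma sum_norm_smul (hinv : ∀ γ ∈ Gamma0 N, ∀ z : ℍ, (H (γ • z)).re = (H z).re)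
    (a : SL(2, ℤ)) (w : ℍ) :
    ∑ q : QQ N, ‖comp H q (a • w)‖ ^ 2 = ∑ q : QQ N, ‖comp H q w‖ ^ 2 := by
  refine Fintype.sum_equiv (MulAction.toPerm a⁻¹) _ _ fun q ↦ ?_
  rw [norm_comp, norm_comp]
  congr 2
  induction q using QuotientGroup.induction_on with
  | H g =>
    rw [re_comp_eq hinv, MulAction.toPerm_apply, MulAction.Quotient.smul_coe, smul_eq_mul,
      re_comp_eq hinv, mul_inv_rev, inv_inv, mul_smul]

lemma comp_periodic (hH : Nice N H) (q : QQ N) :
    Periodic ((comp H q) ∘ ofComplex) (N : ℝ) := by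
  apply periodic_comp_ofComplex_of_vadd
  intro τ
  rw [comp, comp, hH.per]

lemma comp_mdiff (hH : Nice N H) (q : QQ N) : MDiff (comp H q) :=
  mdiff_exp (mdiff_comp_smul hH.mdiff _)

lemma comp_bdd (hH : Nice N H) (q : QQ N) : IsBoundedAtImInfty (comp H q) := by
  have h := hH.bdd q.out⁻¹
  rw [isBoundedAtImInfty_iff] at h ⊢
  obtain ⟨M, A, hMA⟩ := h
  refine ⟨Real.exp M, A, fun z hz ↦ ?_⟩
  rw [norm_comp]
  exact Real.exp_le_exp.mpr ((Complex.re_le_norm _).trans (hMA z hz))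

/-- the vector valued cusp function -/
def vec (H : ℍ → ℂ) (ζ : ℂ) : EuclideanSpace ℂ (QQ N) :=
  WithLp.toLp 2 fun q ↦ cuspFunction N (comp H q) ζ

lemma vec_apply (q : QQ N) (ζ : ℂ) : vec H ζ q = cuspFunction N (comp H q) ζ := rfl

lemma vec_differentiableOn (hH : Nice N H) :
    DifferentiableOn ℂ (vec (N := N) H) (Metric.ball 0 1) := by
  rw [differentiableOn_euclidean]
  intro q
  have hN : (0 : ℝ) < N := by exact_mod_cast Nat.pos_of_ne_zero (NeZero.ne N)
  exact differentiableOn_cuspFunction_ball hN (comp_periodic hH q) (comp_mdiff hH q)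
    (comp_bdd hH q)

lemma vec_qParam (hH : Nice N H) (τ : ℍ) (q : QQ N) : vec H (𝕢 N τ) q = comp H q τ := by
  have hN : (0 : ℝ) < N := by exact_mod_cast Nat.pos_of_ne_zero (NeZero.ne N)
  rw [vec_apply]
  exact UpperHalfPlane.eq_cuspFunction τ hN.ne' (comp_periodic hH q)

lemma norm_vec_qParam (hH : Nice N H) (τ : ℍ) :
    ‖vec (N := N) H (𝕢 N τ)‖ ^ 2 = ∑ q : QQ N, ‖comp H q τ‖ ^ 2 := by
  rw [EuclideanSpace.norm_sq_eq]
  exact Finset.sum_congr rfl fun q _ ↦ by rw [vec_qParam hH]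

lemma norm_vec_smul (hH : Nice N H) (hinv : ∀ γ ∈ Gamma0 N, ∀ z : ℍ, (H (γ • z)).re = (H z).re)
    (a : SL(2, ℤ)) (τ : ℍ) :
    ‖vec (N := N) H (𝕢 N (a • τ : ℍ))‖ = ‖vec (N := N) H (𝕢 N τ)‖ := by
  rw [← sq_eq_sq₀ (norm_nonneg _) (norm_nonneg _), norm_vec_qParam hH, norm_vec_qParam hH,
    sum_norm_smul hinv]

theorem vec_const (hH : Nice N H) (hinv : ∀ γ ∈ Gamma0 N, ∀ z : ℍ, (H (γ • z)).re = (H z).re) :
    Set.EqOn (vec (N := N) H) (Function.const ℂ (vec (N := N) H 0)) (Metric.ball 0 1) := by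
  have hN : (0 : ℝ) < N := by exact_mod_cast Nat.pos_of_ne_zero (NeZero.ne N)
  refine Complex.eq_const_of_exists_le (r := Real.exp (-π / N)) (vec_differentiableOn hH)
    (Real.exp_nonneg _) ?_ fun ζ hζ ↦ ?_
  · rw [Real.exp_lt_one_iff]
    exact div_neg_of_neg_of_pos (by linarith [Real.pi_pos]) hN
  · rcases eq_or_ne ζ 0 with rfl | hζ0
    · exact ⟨0, by simpa using Real.exp_nonneg _, le_rfl⟩
    · have him := Periodic.im_invQParam_pos_of_norm_lt_one hN (mem_ball_zero_iff.mp hζ) hζ0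
      set τ : ℍ := ⟨_, him⟩ with hτ
      have hζτ : 𝕢 N τ = ζ := Periodic.qParam_right_inv hN.ne' hζ0
      obtain ⟨γ, hγ⟩ := ModularGroup.exists_one_half_le_im_smul τ
      refine ⟨𝕢 N (γ • τ : ℍ), ?_, ?_⟩
      · rw [mem_closedBall_zero_iff, Periodic.norm_qParam]
        apply Real.exp_le_exp.mpr
        apply div_le_div_of_nonneg_right _ hN.le
        have h1 : (1 / 2 : ℝ) ≤ ((γ • τ : ℍ) : ℂ).im := hγ
        nlinarith [Real.pi_pos]
      · rw [norm_vec_smul hH hinv, hζτ]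

/-- The main consequence of the maximum principle. -/
theorem Nice.eq_const (hH : Nice N H)
    (hinv : ∀ γ ∈ Gamma0 N, ∀ z : ℍ, (H (γ • z)).re = (H z).re) :
    ∀ z w : ℍ, H z = H w := by
  have hN : (0 : ℝ) < N := by exact_mod_cast Nat.pos_of_ne_zero (NeZero.ne N)
  have h1 : ∀ (q : QQ N) (z w : ℍ), comp H q z = comp H q w := by
    intro q z w
    have h2 : ∀ z : ℍ, 𝕢 N z ∈ Metric.ball (0 : ℂ) 1 := fun z ↦ by
      simpa using Periodic.norm_qParam_lt_one hN z.im_pos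
    rw [← vec_qParam hH, ← vec_qParam hH, vec_const hH hinv (h2 z), vec_const hH hinv (h2 w)]
    rfl
  -- the exponential of `H` is constant
  have h3 : ∀ z w : ℍ, Complex.exp (H z) = Complex.exp (H w) := by
    intro z w
    have := h1 ((1 : SL(2, ℤ)) : QQ N) (((1 : SL(2, ℤ)) : QQ N).out • z)
      (((1 : SL(2, ℤ)) : QQ N).out • w)
    simpa only [comp, inv_smul_smul] using this
  -- hence `H` has zero derivative
  have hd : ∀ z : ℂ, 0 < z.im → HasDerivAt (H ∘ ofComplex) 0 z := by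
    intro z hz
    have hdiff : DifferentiableAt ℂ (H ∘ ofComplex) z :=
      UpperHalfPlane.mdifferentiableAt_iff.mp (hH.mdiff ⟨z, hz⟩)
    have h4 := hdiff.hasDerivAt.cexp
    have h5 : HasDerivAt (fun x ↦ Complex.exp ((H ∘ ofComplex) x)) 0 z := by
      have : (fun x ↦ Complex.exp ((H ∘ ofComplex) x)) =
          fun _ ↦ Complex.exp (H UpperHalfPlane.I) := by
        ext x; exact h3 _ _
      rw [this]; exact hasDerivAt_const _ _
    have h6 := h4.unique h5
    have h7 : deriv (H ∘ ofComplex) z = 0 := by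
      rcases mul_eq_zero.mp h6 with h | h
      · exact absurd h (Complex.exp_ne_zero _)
      · exact h
    rw [← h7]; exact hdiff.hasDerivAt
  have hp : IsPrim 0 H := fun τ ↦ hd τ τ.im_pos
  have hp0 : IsPrim 0 (0 : ℍ → ℂ) := fun τ ↦ by
    have : ((0 : ℍ → ℂ) ∘ ofComplex) = fun _ ↦ (0 : ℂ) := by ext; simp
    rw [this]; exact hasDerivAt_const _ _
  intro z w
  simpa using hp.sub_eq_sub hp0 z w

end max

end Fermat.Agent.S21per
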